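import Mathlib
import Fermat.Prelude.Def_CuspForm_HeckeAlgebra

/-!
# S31 / SS5 (helper178): the anemic Hecke algebra is reduced, from ANY definite pairing for
which the `T_ℓ` (`ℓ ∤ N`) are self-adjoint

`isReduced_heckeAlgebra_of_pairing` : let `B` be a biadditive pairing on `S_k(Γ₀(N))` with
values in any additive group `A`, definite (`B f f = 0 → f = 0`), such that every `T_ℓ`
(`ℓ ∤ N` prime) is self-adjoint for `B`.  If `S` contains all primes dividing `N`, then
`CuspForm.heckeAlgebra N k S` is reduced.

No analysis here: the Petersson pairing (any normalisation, any partition function, linear or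
conjugate-linear in either variable) is plugged in by the caller.
-/

set_option autoImplicit false

namespace Fermat.Agent.S31.H178

open CuspForm

variable {N : ℕ} [NeZero N] {k : ℤ} {S : Set ℕ}

section abstract

variable {V A : Type*} [AddCommGroup V] [Module ℂ V] [AddCommGroup A]

/-- Self-adjointness with respect to a pairing. -/
def IsSelfAdj (B : V → V → A) (t : Module.End ℂ V) : Prop :=
  ∀ f g : V, B (t f) g = B f (t g)

variable {B : V → V → A}

theorem IsSelfAdj.add {t t' : Module.End ℂ V}
    (hl : ∀ f g h : V, B (f + g) h = B f h + B g h)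
    (hr : ∀ f g h : V, B f (g + h) = B f g + B f h)
    (ht : IsSelfAdj B t) (ht' : IsSelfAdj B t') : IsSelfAdj B (t + t') := by
  intro f g
  rw [LinearMap.add_apply, LinearMap.add_apply, hl, hr, ht f g, ht' f g]

omit [AddCommGroup A] in
theorem IsSelfAdj.mul {t t' : Module.End ℂ V} (hc : Commute t t')
    (ht : IsSelfAdj B t) (ht' : IsSelfAdj B t') : IsSelfAdj B (t * t') := by
  intro f g
  have h1 : (t * t') f = t (t' f) := rfl
  have h2 : (t * t') g = t' (t g) := by rw [hc.eq]; rfl
  rw [h1, h2, ht (t' f) g, ht' f (t g)]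

theorem isSelfAdj_zero (hl : ∀ f g h : V, B (f + g) h = B f h + B g h)
    (hr : ∀ f g h : V, B f (g + h) = B f g + B f h) : IsSelfAdj B (0 : Module.End ℂ V) := by
  intro f g
  have h1 : B 0 g = 0 := by
    have := hl 0 0 g
    rw [add_zero] at this
    exact left_eq_add.mp this
  have h2 : B f 0 = 0 := by
    have := hr f 0 0
    rw [add_zero] at this
    exact left_eq_add.mp this
  rw [LinearMap.zero_apply, LinearMap.zero_apply, h1, h2]

omit [AddCommGroup A] in
theorem isSelfAdj_one : IsSelfAdj B (1 : Module.End ℂ V) := fun _ _ => rfl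

theorem IsSelfAdj.neg {t : Module.End ℂ V}
    (hl : ∀ f g h : V, B (f + g) h = B f h + B g h)
    (hr : ∀ f g h : V, B f (g + h) = B f g + B f h)
    (ht : IsSelfAdj B t) : IsSelfAdj B (-t) := by
  intro f g
  have h0 := isSelfAdj_zero (B := B) hl hr
  have hl0 : ∀ g : V, B 0 g = 0 := fun g => by
    have := hl 0 0 g
    rw [add_zero] at this
    exact left_eq_add.mp this
  have hr0 : ∀ f : V, B f 0 = 0 := fun f => by
    have := hr f 0 0
    rw [add_zero] at this
    exact left_eq_add.mp this
  have h1 : B (-(t f)) g = -B (t f) g := by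
    have := hl (-(t f)) (t f) g
    rw [neg_add_cancel, hl0] at this
    exact eq_neg_of_add_eq_zero_left this.symm
  have h2 : B f (-(t g)) = -B f (t g) := by
    have := hr f (-(t g)) (t g)
    rw [neg_add_cancel, hr0] at this
    exact eq_neg_of_add_eq_zero_left this.symm
  rw [LinearMap.neg_apply, LinearMap.neg_apply, h1, h2, ht f g]

theorem isSelfAdj_natCast (hl : ∀ f g h : V, B (f + g) h = B f h + B g h)
    (hr : ∀ f g h : V, B f (g + h) = B f g + B f h) (n : ℕ) :
    IsSelfAdj B ((n : ℕ) : Module.End ℂ V) := by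
  induction n with
  | zero => rw [Nat.cast_zero]; exact isSelfAdj_zero hl hr
  | succ n ih => rw [Nat.cast_succ]; exact ih.add hl hr isSelfAdj_one

theorem isSelfAdj_intCast (hl : ∀ f g h : V, B (f + g) h = B f h + B g h)
    (hr : ∀ f g h : V, B f (g + h) = B f g + B f h) (n : ℤ) :
    IsSelfAdj B ((n : ℤ) : Module.End ℂ V) := by
  cases n with
  | ofNat n => rw [Int.ofNat_eq_natCast, Int.cast_natCast]; exact isSelfAdj_natCast hl hr n
  | negSucc n =>
    rw [Int.cast_negSucc]
    exact (isSelfAdj_natCast hl hr (n + 1)).neg hl hr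

/-- A self-adjoint operator with square zero vanishes (definite pairing). -/
theorem IsSelfAdj.eq_zero_of_sq_eq_zero {t : Module.End ℂ V}
    (hr : ∀ f g h : V, B f (g + h) = B f g + B f h)
    (hdef : ∀ f : V, B f f = 0 → f = 0)
    (ht : IsSelfAdj B t) (h2 : t ^ 2 = 0) : t = 0 := by
  apply LinearMap.ext
  intro f
  rw [LinearMap.zero_apply]
  apply hdef
  have hr0 : B f 0 = 0 := by
    have := hr f 0 0
    rw [add_zero] at this
    exact left_eq_add.mp this
  have h3 : t (t f) = 0 := by
    have : (t ^ 2) f = t (t f) := by rw [pow_two]; rfl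
    rw [← this, h2, LinearMap.zero_apply]
  rw [ht f (t f), h3]
  exact hr0

end abstract

/-- **SS5.**  The anemic Hecke algebra is reduced as soon as there is a definite biadditive
pairing on `S_k(Γ₀(N))` for which all `T_ℓ`, `ℓ ∤ N`, are self-adjoint. -/
theorem isReduced_heckeAlgebra_of_pairing (N : ℕ) [NeZero N] (k : ℤ) (S : Set ℕ)
    (hNS : ∀ q : ℕ, q.Prime → q ∣ N → q ∈ S)
    {A : Type*} [AddCommGroup A]
    (B : CuspForm (CongruenceSubgroup.Gamma0 N) k → CuspForm (CongruenceSubgroup.Gamma0 N) k → A)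
    (hl : ∀ f g h, B (f + g) h = B f h + B g h)
    (hr : ∀ f g h, B f (g + h) = B f g + B f h)
    (hdef : ∀ f, B f f = 0 → f = 0)
    (hT : ∀ (ℓ : ℕ) (hℓ : ℓ.Prime) (hℓN : ¬ ℓ ∣ N) (f g),
      B (heckeTLin k hℓ hℓN f) g = B f (heckeTLin k hℓ hℓN g)) :
    IsReduced (heckeAlgebra N k S) := by
  -- every element of the Hecke algebra is self-adjoint
  have hsa : ∀ t ∈ heckeAlgebra N k S, IsSelfAdj B t := by
    intro t ht
    induction ht using Algebra.adjoin_induction with
    | mem x hx =>
      rcases hx with ⟨ℓ, hℓ, hℓN, -, rfl⟩ | ⟨q, hqN, hq, hqS, rfl⟩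
      · exact hT ℓ hℓ hℓN
      · exact absurd (hNS q hq hqN) hqS
    | algebraMap r =>
      have : (algebraMap ℤ (Module.End ℂ (CuspForm (CongruenceSubgroup.Gamma0 N) k))) r =
          ((r : ℤ) : Module.End ℂ (CuspForm (CongruenceSubgroup.Gamma0 N) k)) := by
        simp
      rw [this]
      exact isSelfAdj_intCast hl hr r
    | add x y hx hy ihx ihy => exact ihx.add hl hr ihy
    | mul x y hx hy ihx ihy =>
      have hc : Commute x y := by
        have := mul_comm (⟨x, hx⟩ : heckeAlgebra N k S) ⟨y, hy⟩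
        exact congrArg Subtype.val this
      exact ihx.mul hc ihy
  rw [isReduced_iff_pow_one_lt 2 one_lt_two]
  intro x hx
  apply Subtype.ext
  have h2 : (x : Module.End ℂ (CuspForm (CongruenceSubgroup.Gamma0 N) k)) ^ 2 = 0 := by
    have := congrArg Subtype.val hx
    simpa using this
  exact (hsa x x.2).eq_zero_of_sq_eq_zero hr hdef h2

end Fermat.Agent.S31.H178
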