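import Mathlib
import Fermat.Agent.S21.Partition

/-!
# S31 / SS leaf G1a (helper178): the `SL(2,ℤ)` partition function `chiOne` is integrable
for the invariant measure of the upper half-plane

* `volume_strip_lt_top` : the region `|Re τ| ≤ 1`, `1/2 ≤ Im τ` has finite hyperbolic volume;
* `chiOne_le_one`;
* `integrable_chiOne` : `Integrable (fun τ : ℍ => chiOne (τ : ℂ))`.
-/

set_option autoImplicit false

open MeasureTheory UpperHalfPlane Set
open scoped NNReal ENNReal MatrixGroups

namespace Fermat.Agent.S31.H178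

open Fermat.Agent.S21 Fermat.Agent.S21.PartitionAux

/-- The strip `|Re τ| ≤ 1`, `1/2 ≤ Im τ` in the upper half-plane. -/
def strip : Set ℍ := {τ : ℍ | |τ.re| ≤ 1 ∧ 1 / 2 ≤ τ.im}

theorem isClosed_strip : IsClosed strip := by
  have h1 : Continuous fun τ : ℍ => |τ.re| := (continuous_re).abs
  have h2 : Continuous fun τ : ℍ => τ.im := continuous_im
  exact (isClosed_le h1 continuous_const).inter (isClosed_le continuous_const h2)

theorem measurableSet_strip : MeasurableSet strip := isClosed_strip.measurableSet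

/-- The inner integral `∫_{1/2}^∞ y⁻² dy` is finite. -/
theorem lintegral_inv_sq_lt_top :
    ∫⁻ y in Ici (1 / 2 : ℝ), (((1 / ‖y‖₊) ^ 2 : ℝ≥0) : ℝ≥0∞) < ⊤ := by
  have hsub : Ici (1 / 2 : ℝ) ⊆ Ioi (1 / 4 : ℝ) := fun y hy =>
    lt_of_lt_of_le (by norm_num) (mem_Ici.mp hy)
  refine lt_of_le_of_lt (lintegral_mono_set hsub) ?_
  have hint : IntegrableOn (fun t : ℝ => t ^ (-2 : ℝ)) (Ioi (1 / 4 : ℝ)) :=
    integrableOn_Ioi_rpow_of_lt (by norm_num) (by norm_num)
  have hcongr : ∫⁻ y in Ioi (1 / 4 : ℝ), (((1 / ‖y‖₊) ^ 2 : ℝ≥0) : ℝ≥0∞) =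
      ∫⁻ y in Ioi (1 / 4 : ℝ), ENNReal.ofReal (y ^ (-2 : ℝ)) := by
    refine setLIntegral_congr_fun measurableSet_Ioi fun y hy => ?_
    have hy0 : (0 : ℝ) < y := lt_trans (by norm_num) (mem_Ioi.mp hy)
    rw [← ENNReal.ofReal_coe_nnreal]
    congr 1
    push_cast
    rw [Real.norm_of_nonneg hy0.le, Real.rpow_neg hy0.le, one_div, inv_pow]
    congr 1
    exact (Real.rpow_two y).symm
  rw [hcongr]
  exact hint.setLIntegral_lt_top

/-- The strip has finite hyperbolic volume. -/
theorem volume_strip_lt_top : volume strip < ⊤ := by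
  rw [volume_eq_lintegral]
  set F : Set (ℝ × ℝ) := Icc (-1 : ℝ) 1 ×ˢ Ici (1 / 2 : ℝ) with hF
  have hsub : (UpperHalfPlane.coe '' strip) ⊆ Complex.measurableEquivRealProd ⁻¹' F := by
    rintro _ ⟨τ, hτ, rfl⟩
    simp only [hF, mem_preimage, Complex.measurableEquivRealProd_apply, mem_prod, mem_Icc,
      mem_Ici]
    exact ⟨abs_le.mp hτ.1, hτ.2⟩
  refine lt_of_le_of_lt (lintegral_mono_set hsub) ?_
  have hmp := Complex.volume_preserving_equiv_real_prod
  have h1 := hmp.setLIntegral_comp_preimage_emb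
    Complex.measurableEquivRealProd.measurableEmbedding
    (fun q : ℝ × ℝ => (((1 / ‖q.2‖₊) ^ 2 : ℝ≥0) : ℝ≥0∞)) F
  have h2 : ∫⁻ z in Complex.measurableEquivRealProd ⁻¹' F, (((1 / ‖z.im‖₊) ^ 2 : ℝ≥0) : ℝ≥0∞) =
      ∫⁻ q in F, (((1 / ‖q.2‖₊) ^ 2 : ℝ≥0) : ℝ≥0∞) := by
    rw [← h1]
    rfl
  rw [h2, hF, Measure.volume_eq_prod]
  rw [setLIntegral_prod]
  · simp only
    rw [setLIntegral_const]
    refine ENNReal.mul_lt_top lintegral_inv_sq_lt_top ?_
    rw [Real.volume_Icc]
    exact ENNReal.ofReal_lt_top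
  · refine Measurable.aemeasurable ?_
    fun_prop

/-- `chiOne ≤ 1` on the upper half-plane. -/
theorem chiOne_le_one {z : ℂ} (hz : z ∈ Uhp) : chiOne z ≤ 1 := by
  have hfin := finite_chiOne_support {z} isCompact_singleton (by simpa using hz)
  have hsum := finsum_chiOne hz
  have hsupp : (Function.support fun g : SL(2, ℤ) => chiOne (mob g z)) ⊆ hfin.toFinset := by
    intro g hg
    rw [Set.Finite.coe_toFinset]
    exact ⟨z, rfl, hg⟩
  rw [finsum_eq_sum_of_support_subset _ hsupp] at hsum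
  by_cases h0 : chiOne z = 0
  · rw [h0]; exact zero_le_one
  · have hmem : (1 : SL(2, ℤ)) ∈ hfin.toFinset := by
      rw [Set.Finite.mem_toFinset]
      refine ⟨z, rfl, ?_⟩
      rwa [mob_one hz]
    have := Finset.single_le_sum (f := fun g : SL(2, ℤ) => chiOne (mob g z))
      (fun g _ => chiOne_nonneg _) hmem
    rw [hsum] at this
    simpa [mob_one hz] using this

theorem continuous_chiOne_coe : Continuous fun τ : ℍ => chiOne (τ : ℂ) := by
  have h := chiOne_contDiffOn.continuousOn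
  exact h.comp_continuous UpperHalfPlane.continuous_coe (fun τ => coe_mem_Uhp τ)

/-- **G1a.**  The partition function `chiOne` is integrable on the upper half-plane. -/
theorem integrable_chiOne : Integrable (fun τ : ℍ => chiOne (τ : ℂ)) := by
  have hbound : Integrable (strip.indicator fun _ : ℍ => (1 : ℝ)) := by
    rw [integrable_indicator_iff measurableSet_strip]
    exact integrableOn_const volume_strip_lt_top.ne
  refine hbound.mono' continuous_chiOne_coe.aestronglyMeasurable (Filter.Eventually.of_forall ?_)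
  intro τ
  rw [Real.norm_of_nonneg (chiOne_nonneg _)]
  by_cases h0 : chiOne (τ : ℂ) = 0
  · rw [h0]
    exact Set.indicator_nonneg (fun _ _ => zero_le_one) τ
  · have hs := chiOne_support h0
    have hmem : τ ∈ strip := ⟨hs.1.le, hs.2.le⟩
    rw [Set.indicator_of_mem hmem]
    exact chiOne_le_one (coe_mem_Uhp τ)

end Fermat.Agent.S31.H178
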